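import Mathlib

/-!
M59 / block [G5], cell (G5-ord) (helper29), prefix `m59go_`.  THE CHORD LEMMA (pure valuation
algebra, Mathlib only).

`K` a field with a valuation `v`, `σ` a ring automorphism of `K` preserving `v`.  A cubic in the
normal form `y² = ξ³ - E ξ² - D ξ + D E = (ξ² - D)(ξ - E)`, `v D < 1`, `v E = 1`, `t² = -E`
(the node of the reduction is at the origin, `±t` are the slopes of its two branches), `D, E, t`
fixed by `σ`.  For a point `(ξ, y)` reducing to the node (`v ξ < 1`, `v y < 1`), the chord through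
`σ(ξ, y) = (σ ξ, σ y)` and `-(ξ, y) = (ξ, -y)` has direction `(X, Y) = (σ ξ - ξ, σ y + y)` and

  `v (Y - t X) = v (Y + t X)`                                        (`m59go_chord`)

i.e. the chord does not reduce to a branch of the node; hence (`m59go_chord_third`) for `X ≠ 0` and
`λ = Y / X`: `v (λ² + E) ≥ 1`, so the third point `ξ₃ = λ² + E - ξ - σ ξ` is NOT in the maximal
ideal: `σ P - P` does not reduce to the node.
-/

set_option autoImplicit false

namespace Fermat.Agent.M59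

section

variable {K : Type*} [Field K] {Γ₀ : Type*} [LinearOrderedCommGroupWithZero Γ₀]
  (v : Valuation K Γ₀)

theorem m59go_sq_lt {a : Γ₀} (h0 : a ≠ 0) (h1 : a < 1) : a * a < a := by
  have := mul_lt_mul_of_pos_left h1 (zero_lt_iff.mpr h0)
  rwa [mul_one] at this

/-- the half of the chord lemma with `v u ≤ v w`. -/
theorem m59go_chord_aux (σ : K ≃+* K) (hσv : ∀ x, v (σ x) = v x)
    {D E t ξ y : K} (hD : v D < 1) (hE : v E = 1) (ht : t ^ 2 = -E) (hvt : v t = 1)
    (hv2 : v (2 : K) = 1) (hσD : σ D = D) (hσt : σ t = t)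
    (hcurve : y ^ 2 = ξ ^ 3 - E * ξ ^ 2 - D * ξ + D * E)
    (hξ : v ξ < 1) (hy : v y < 1) (hle : v (y - t * ξ) ≤ v (y + t * ξ)) :
    v ((σ y + y) - t * (σ ξ - ξ)) = v ((σ y + y) + t * (σ ξ - ξ)) := by
  set u := y - t * ξ with hu
  set w := y + t * ξ with hw
  have h2t : v (2 * t) = 1 := by rw [map_mul, hv2, hvt, one_mul]
  have h2t0 : (2 * t : K) ≠ 0 := fun h => by rw [h, map_zero] at h2t; exact zero_ne_one h2t
  have h20 : (2 : K) ≠ 0 := fun h => by rw [h, map_zero] at hv2; exact zero_ne_one hv2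
  have ht0 : t ≠ 0 := fun h => by rw [h, map_zero] at hvt; exact zero_ne_one hvt
  have hξeq : ξ = (w - u) / (2 * t) := by
    rw [eq_div_iff h2t0, hu, hw]; ring
  have hyeq : 2 * y = u + w := by rw [hu, hw]; ring
  by_cases hw0 : w = 0
  · -- then `u = 0`, `ξ = y = 0`
    have hu0 : u = 0 := by
      have : v u ≤ 0 := by rw [hw0, map_zero] at hle; exact hle
      exact v.zero_iff.mp (le_antisymm this zero_le)
    have hξ0 : ξ = 0 := by rw [hξeq, hw0, hu0]; simp
    have hy0 : y = 0 := by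
      have : 2 * y = 0 := by rw [hyeq, hw0, hu0, add_zero]
      exact (mul_eq_zero.mp this).resolve_left h20
    rw [hξ0, hy0]
    simp
  have hvw0 : v w ≠ 0 := fun h => hw0 (v.zero_iff.mp h)
  have hvw1 : v w < 1 := by
    rw [hw]
    refine lt_of_le_of_lt (v.map_add _ _) (max_lt hy ?_)
    rw [map_mul, hvt, one_mul]; exact hξ
  have hvξw : v ξ ≤ v w := by
    rw [hξeq, map_div₀, h2t, div_one]
    exact (v.map_sub _ _).trans (max_le le_rfl hle)
  -- `u w = ξ³ - D ξ + D E`
  have huw : u * w = ξ ^ 3 - D * ξ + D * E := by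
    have : u * w = y ^ 2 - t ^ 2 * ξ ^ 2 := by rw [hu, hw]; ring
    rw [this, ht, hcurve]; ring
  -- `v D < v w`
  have hDw : v D < v w := by
    by_contra hcon
    rw [not_lt] at hcon
    have hD0 : v D ≠ 0 := fun h => hvw0 (le_antisymm (h ▸ hcon) zero_le)
    have hww : v w * v w < v w := m59go_sq_lt hvw0 hvw1
    have h1 : v (ξ ^ 3) < v D := by
      rw [map_pow]
      calc v ξ ^ 3 ≤ v w ^ 3 := pow_le_pow_left₀ zero_le hvξw 3
        _ = v w * v w * v w := by rw [pow_succ, pow_two]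
        _ ≤ v w * v w := mul_le_of_le_one_right' hvw1.le
        _ < v w := hww
        _ ≤ v D := hcon
    have h2 : v (D * ξ) < v D := by
      rw [map_mul]
      have := mul_lt_mul_of_pos_left hξ (zero_lt_iff.mpr hD0)
      rwa [mul_one] at this
    have h3 : v (D * E) = v D := by rw [map_mul, hE, mul_one]
    have h4 : v (ξ ^ 3 - D * ξ) < v (D * E) := by
      rw [h3]
      exact lt_of_le_of_lt (v.map_sub _ _) (max_lt h1 h2)
    have h5 : v (u * w) = v D := by
      rw [huw, v.map_add_eq_of_lt_right h4, h3]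
    have h6 : v (u * w) ≤ v w * v w := by
      rw [map_mul]; exact mul_le_mul' hle le_rfl
    have : v D < v D := by
      calc v D = v (u * w) := h5.symm
        _ ≤ v w * v w := h6
        _ < v w := hww
        _ ≤ v D := hcon
    exact lt_irrefl _ this
  -- the correction term
  set R := ((σ ξ) ^ 2 + σ ξ * ξ + ξ ^ 2 - D) / (2 * t) with hR
  have hRw : v R < v w := by
    rw [hR, map_div₀, h2t, div_one]
    have hww : v w * v w < v w := m59go_sq_lt hvw0 hvw1
    have hξξ : v ξ * v ξ < v w :=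
      lt_of_le_of_lt (mul_le_mul' hvξw hvξw) hww
    refine lt_of_le_of_lt (v.map_sub _ _) (max_lt ?_ hDw)
    refine lt_of_le_of_lt (v.map_add _ _) (max_lt ?_ ?_)
    · refine lt_of_le_of_lt (v.map_add _ _) (max_lt ?_ ?_)
      · rw [map_pow, hσv, pow_two]; exact hξξ
      · rw [map_mul, hσv]; exact hξξ
    · rw [map_pow, pow_two]; exact hξξ
  -- the identity `U (σ w + R) = Wd (w + R)`
  have hσu : σ u = σ y - t * σ ξ := by rw [hu, map_sub, map_mul, hσt]
  have hσw : σ w = σ y + t * σ ξ := by rw [hw, map_add, map_mul, hσt]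
  have hσuw : σ u * σ w = (σ ξ) ^ 3 - D * σ ξ + D * E := by
    have hσE : σ E = E := by
      have : σ (t ^ 2) = t ^ 2 := by rw [map_pow, hσt]
      rw [ht, map_neg] at this
      exact neg_injective this
    rw [← map_mul, huw, map_add, map_sub, map_pow, map_mul, map_mul, hσD, hσE]
  set U := (σ y + y) - t * (σ ξ - ξ) with hU
  set Wd := (σ y + y) + t * (σ ξ - ξ) with hWd
  have hUeq : U = σ u + w := by rw [hU, hσu, hw]; ring
  have hWdeq : Wd = σ w + u := by rw [hWd, hσw, hu]; ring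
  have hid : U * (σ w + R) = Wd * (w + R) := by
    have e1 : U * σ w - Wd * w = σ u * σ w - u * w := by rw [hUeq, hWdeq]; ring
    have e2 : (Wd - U) * R = (σ ξ - ξ) * ((σ ξ) ^ 2 + σ ξ * ξ + ξ ^ 2 - D) := by
      have e5 : Wd - U = (2 * t) * (σ ξ - ξ) := by rw [hU, hWd]; ring
      rw [e5, hR]; field_simp
    have e3 : σ u * σ w - u * w = (σ ξ - ξ) * ((σ ξ) ^ 2 + σ ξ * ξ + ξ ^ 2 - D) := by
      rw [hσuw, huw]; ring
    have e4 : U * σ w - Wd * w = (Wd - U) * R := by rw [e1, e3, e2]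
    linear_combination e4
  have h1 : v (σ w + R) = v w := by
    rw [v.map_add_eq_of_lt_left (by rw [hσv]; exact hRw), hσv]
  have h2 : v (w + R) = v w := v.map_add_eq_of_lt_left hRw
  have h3 := congrArg v hid
  rw [map_mul, map_mul, h1, h2] at h3
  exact mul_right_cancel₀ hvw0 h3

/-- **THE CHORD LEMMA.** -/
theorem m59go_chord (σ : K ≃+* K) (hσv : ∀ x, v (σ x) = v x)
    {D E t ξ y : K} (hD : v D < 1) (hE : v E = 1) (ht : t ^ 2 = -E) (hvt : v t = 1)
    (hv2 : v (2 : K) = 1) (hσD : σ D = D) (hσt : σ t = t)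
    (hcurve : y ^ 2 = ξ ^ 3 - E * ξ ^ 2 - D * ξ + D * E)
    (hξ : v ξ < 1) (hy : v y < 1) :
    v ((σ y + y) - t * (σ ξ - ξ)) = v ((σ y + y) + t * (σ ξ - ξ)) := by
  rcases le_total (v (y - t * ξ)) (v (y + t * ξ)) with hle | hle
  · exact m59go_chord_aux v σ hσv hD hE ht hvt hv2 hσD hσt hcurve hξ hy hle
  · have hle' : v (y - (-t) * ξ) ≤ v (y + (-t) * ξ) := by
      have e1 : y - (-t) * ξ = y + t * ξ := by ring
      have e2 : y + (-t) * ξ = y - t * ξ := by ring
      rw [e1, e2]; exact hle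
    have := m59go_chord_aux v σ hσv (t := -t) hD hE (by rw [neg_pow_two, ht])
      (by rw [Valuation.map_neg, hvt]) hv2 hσD (by rw [map_neg, hσt]) hcurve hξ hy hle'
    have e1 : (σ y + y) - (-t) * (σ ξ - ξ) = (σ y + y) + t * (σ ξ - ξ) := by ring
    have e2 : (σ y + y) + (-t) * (σ ξ - ξ) = (σ y + y) - t * (σ ξ - ξ) := by ring
    rw [e1, e2] at this
    exact this.symm

/-- the third point of the chord through `σ P` and `-P` is not in the maximal ideal. -/
theorem m59go_chord_third (σ : K ≃+* K) (hσv : ∀ x, v (σ x) = v x)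
    {D E t ξ y : K} (hD : v D < 1) (hE : v E = 1) (ht : t ^ 2 = -E) (hvt : v t = 1)
    (hv2 : v (2 : K) = 1) (hσD : σ D = D) (hσt : σ t = t)
    (hcurve : y ^ 2 = ξ ^ 3 - E * ξ ^ 2 - D * ξ + D * E)
    (hξ : v ξ < 1) (hy : v y < 1) (hX : σ ξ ≠ ξ) :
    1 ≤ v (((σ y + y) / (σ ξ - ξ)) ^ 2 + E - ξ - σ ξ) := by
  have hch := m59go_chord v σ hσv hD hE ht hvt hv2 hσD hσt hcurve hξ hy
  set X := σ ξ - ξ with hXdef
  set Y := σ y + y with hYdef
  have hX0 : X ≠ 0 := sub_ne_zero.mpr hX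
  have hvX0 : v X ≠ 0 := fun h => hX0 (v.zero_iff.mp h)
  have h2t : v (2 * t) = 1 := by rw [map_mul, hv2, hvt, one_mul]
  -- `v X ≤ v (Y - t X)`
  have hXle : v X ≤ v (Y - t * X) := by
    have e : (2 * t) * X = (Y + t * X) - (Y - t * X) := by ring
    have h1 : v X = v ((Y + t * X) - (Y - t * X)) := by
      rw [← e, map_mul, h2t, one_mul]
    rw [h1]
    refine (v.map_sub _ _).trans (max_le ?_ le_rfl)
    rw [← hch]
  -- `λ² + E = (Y - tX)(Y + tX) / X²`
  have e1 : (Y / X) ^ 2 + E = (Y - t * X) * (Y + t * X) / X ^ 2 := by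
    have : E = -t ^ 2 := by rw [ht, neg_neg]
    rw [this]; field_simp; ring
  have h1 : 1 ≤ v ((Y / X) ^ 2 + E) := by
    rw [e1, map_div₀, map_mul, ← hch, map_pow, pow_two]
    rw [le_div_iff₀ (zero_lt_iff.mpr (mul_ne_zero hvX0 hvX0)), one_mul]
    exact mul_le_mul' hXle hXle
  have h2 : v (ξ + σ ξ) < 1 := by
    refine lt_of_le_of_lt (v.map_add _ _) (max_lt hξ ?_)
    rw [hσv]; exact hξ
  have e2 : (Y / X) ^ 2 + E - ξ - σ ξ = ((Y / X) ^ 2 + E) - (ξ + σ ξ) := by ring
  rw [e2, v.map_sub_eq_of_lt_left (lt_of_lt_of_le h2 h1)]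
  exact h1

end

end Fermat.Agent.M59
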