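import Mathlib
import Fermat.Agent.M59.G5.Ord.Chord

/-!
M59 / block [G5], cell (G5-ord) (helper29), prefix `m59go_`.  COORDINATES (pure algebra, Mathlib
only): a Weierstrass equation `W` over a field `K` with a valuation `v`, `v 2 = 1`, in the normal
form `b₂ = -4(3c+E)`, `b₄ = 2(3c²+2cE-D)`, `b₆ = 4(-c³-Ec²+Dc+DE)` of `NormalForm.lean`.
With `ξ = x - c`, `η = (2y + a₁x + a₃)/2`: `η² = ξ³ - Eξ² - Dξ + DE`.
* `m59go_nonsing_val`: an integral point with `v ξ = 1` has `v (∂W/∂x) = 1` or `v (∂W/∂y) = 1`;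
* `m59go_node_val`: an integral point with `v (∂W/∂x) < 1` and `v (∂W/∂y) < 1` has `v ξ < 1`;
* `m59go_addX_sub`: the `x`-coordinate of a chord in the coordinates `(ξ, η)`.
-/

set_option autoImplicit false

namespace Fermat.Agent.M59

section

variable {K : Type*} [Field K] {Γ₀ : Type*} [LinearOrderedCommGroupWithZero Γ₀]
  (v : Valuation K Γ₀)

/-- `(2y + a₁x + a₃)² = 4x³ + b₂x² + 2b₄x + b₆` on the curve. -/
theorem m59go_PY_sq (W : WeierstrassCurve K) {x y : K} (h : W.toAffine.Equation x y) :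
    (2 * y + W.a₁ * x + W.a₃) ^ 2 = 4 * x ^ 3 + W.b₂ * x ^ 2 + 2 * W.b₄ * x + W.b₆ := by
  rw [WeierstrassCurve.Affine.equation_iff] at h
  rw [WeierstrassCurve.b₂, WeierstrassCurve.b₄, WeierstrassCurve.b₆]
  linear_combination 4 * h

/-- the curve in the coordinates `ξ = x - c`, `2η = 2y + a₁x + a₃`. -/
theorem m59go_PY_sq' (W : WeierstrassCurve K) {c D E : K}
    (e2 : W.b₂ = -4 * (3 * c + E)) (e4 : W.b₄ = 2 * (3 * c ^ 2 + 2 * c * E - D))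
    (e6 : W.b₆ = 4 * (-c ^ 3 - E * c ^ 2 + D * c + D * E))
    {x y : K} (h : W.toAffine.Equation x y) :
    (2 * y + W.a₁ * x + W.a₃) ^ 2 = 4 * (((x - c) - E) * ((x - c) ^ 2 - D)) := by
  rw [m59go_PY_sq W h, e2, e4, e6]; ring

/-- `2 ∂W/∂x = a₁ (∂W/∂y) - 2 ((ξ² - D) + 2ξ(ξ - E))`. -/
theorem m59go_PX_eq (W : WeierstrassCurve K) {c D E : K}
    (e2 : W.b₂ = -4 * (3 * c + E)) (e4 : W.b₄ = 2 * (3 * c ^ 2 + 2 * c * E - D)) (x y : K) :
    2 * (W.a₁ * y - (3 * x ^ 2 + 2 * W.a₂ * x + W.a₄)) =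
      W.a₁ * (2 * y + W.a₁ * x + W.a₃) -
        2 * (((x - c) ^ 2 - D) + 2 * (x - c) * ((x - c) - E)) := by
  rw [WeierstrassCurve.b₂] at e2
  rw [WeierstrassCurve.b₄] at e4
  linear_combination (-x) * e2 - e4

/-- an integral point whose `ξ` is a unit: one of the partial derivatives is a unit. -/
theorem m59go_nonsing_val (W : WeierstrassCurve K) (hv2 : v (2 : K) = 1) (h1 : v W.a₁ ≤ 1)
    {c D E : K} (hD : v D < 1)
    (e2 : W.b₂ = -4 * (3 * c + E)) (e4 : W.b₄ = 2 * (3 * c ^ 2 + 2 * c * E - D))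
    (e6 : W.b₆ = 4 * (-c ^ 3 - E * c ^ 2 + D * c + D * E))
    {x y : K} (h : W.toAffine.Equation x y) (hPY : v (2 * y + W.a₁ * x + W.a₃) ≤ 1)
    (hξ : v (x - c) = 1) :
    v (W.a₁ * y - (3 * x ^ 2 + 2 * W.a₂ * x + W.a₄)) = 1 ∨
      v (2 * y + W.a₁ * x + W.a₃) = 1 := by
  by_cases hY : v (2 * y + W.a₁ * x + W.a₃) = 1
  · exact Or.inr hY
  left
  have hYlt : v (2 * y + W.a₁ * x + W.a₃) < 1 := lt_of_le_of_ne hPY hY
  have hv4 : v (4 : K) = 1 := by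
    have : (4 : K) = 2 * 2 := by norm_num
    rw [this, map_mul, hv2, one_mul]
  have hsq := m59go_PY_sq' W e2 e4 e6 h
  have hq : v ((x - c) ^ 2 - D) = 1 := by
    rw [v.map_sub_eq_of_lt_left (by rw [map_pow, hξ, one_pow]; exact hD), map_pow, hξ, one_pow]
  have hlin : v ((x - c) - E) < 1 := by
    have h3 := congrArg v hsq
    rw [map_pow, map_mul, map_mul, hv4, one_mul, hq, mul_one] at h3
    rw [← h3]
    exact pow_lt_one₀ zero_le hYlt (by norm_num)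
  have hP := m59go_PX_eq W e2 e4 x y
  have h2P : v (2 * (W.a₁ * y - (3 * x ^ 2 + 2 * W.a₂ * x + W.a₄))) = 1 := by
    rw [hP]
    have hA : v (W.a₁ * (2 * y + W.a₁ * x + W.a₃)) < 1 := by
      rw [map_mul, mul_comm]
      rcases eq_or_ne (v W.a₁) 0 with h0 | h0
      · rw [h0, mul_zero]; exact zero_lt_one
      · calc v (2 * y + W.a₁ * x + W.a₃) * v W.a₁ < 1 * v W.a₁ :=
            mul_lt_mul_of_pos_right hYlt (zero_lt_iff.mpr h0)
          _ = v W.a₁ := one_mul _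
          _ ≤ 1 := h1
    have hB : v (2 * (x - c) * ((x - c) - E)) < 1 := by
      rw [map_mul, map_mul, hv2, hξ, one_mul, one_mul]; exact hlin
    have hC : v (((x - c) ^ 2 - D) + 2 * (x - c) * ((x - c) - E)) = 1 := by
      rw [v.map_add_eq_of_lt_left (by rw [hq]; exact hB), hq]
    have hC2 : v (2 * (((x - c) ^ 2 - D) + 2 * (x - c) * ((x - c) - E))) = 1 := by
      rw [map_mul, hv2, hC, one_mul]
    rw [v.map_sub_eq_of_lt_right (by rw [hC2]; exact hA), hC2]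
  rwa [map_mul, hv2, one_mul] at h2P

/-- an integral point reducing to a singular point reduces to the node `ξ = 0`. -/
theorem m59go_node_val (W : WeierstrassCurve K) (hv2 : v (2 : K) = 1) (h1 : v W.a₁ ≤ 1)
    {c D E : K} (hD : v D < 1)
    (e2 : W.b₂ = -4 * (3 * c + E)) (e4 : W.b₄ = 2 * (3 * c ^ 2 + 2 * c * E - D))
    (e6 : W.b₆ = 4 * (-c ^ 3 - E * c ^ 2 + D * c + D * E))
    {x y : K} (h : W.toAffine.Equation x y) (hxc : v (x - c) ≤ 1)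
    (hPX : v (W.a₁ * y - (3 * x ^ 2 + 2 * W.a₂ * x + W.a₄)) < 1)
    (hPY : v (2 * y + W.a₁ * x + W.a₃) < 1) : v (x - c) < 1 := by
  refine lt_of_le_of_ne hxc fun hξ => ?_
  rcases m59go_nonsing_val v W hv2 h1 hD e2 e4 e6 h hPY.le hξ with h' | h'
  · exact absurd h' (ne_of_lt hPX)
  · exact absurd h' (ne_of_lt hPY)

/-- **the chord in the coordinates `(ξ, η)`**: with `ℓ` the slope of the line through `(x₁, y₁)`
and `(x₂, -y₂ - a₁x₂ - a₃)`, `x₁ ≠ x₂`, and `M = (η₁ + η₂)/(ξ₁ - ξ₂)`: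
`addX x₁ x₂ ℓ - c = M² + E - ξ₂ - ξ₁`. -/
theorem m59go_addX_sub (W : WeierstrassCurve K) (h2 : (2 : K) ≠ 0) {c E : K}
    (e2 : W.b₂ = -4 * (3 * c + E)) {x₁ y₁ x₂ y₂ : K} (hx : x₁ ≠ x₂) :
    W.toAffine.addX x₁ x₂ ((y₁ - W.toAffine.negY x₂ y₂) / (x₁ - x₂)) - c =
      ((((2 * y₁ + W.a₁ * x₁ + W.a₃) / 2 + (2 * y₂ + W.a₁ * x₂ + W.a₃) / 2)) /
        ((x₁ - c) - (x₂ - c))) ^ 2 + E - (x₂ - c) - (x₁ - c) := by
  have hd : x₁ - x₂ ≠ 0 := sub_ne_zero.mpr hx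
  have h4 : (4 : K) ≠ 0 := by
    have : (4 : K) = 2 * 2 := by norm_num
    rw [this]; exact mul_ne_zero h2 h2
  rw [WeierstrassCurve.b₂] at e2
  have hM : ((2 * y₁ + W.a₁ * x₁ + W.a₃) / 2 + (2 * y₂ + W.a₁ * x₂ + W.a₃) / 2) /
      ((x₁ - c) - (x₂ - c)) = (y₁ - W.toAffine.negY x₂ y₂) / (x₁ - x₂) + W.a₁ / 2 := by
    have : (x₁ - c) - (x₂ - c) = x₁ - x₂ := by ring
    rw [this, WeierstrassCurve.Affine.negY]
    field_simp
    ring
  rw [hM, WeierstrassCurve.Affine.addX]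
  set ℓ := (y₁ - W.toAffine.negY x₂ y₂) / (x₁ - x₂) with hℓ
  have h4' : 4 * (ℓ ^ 2 + W.a₁ * ℓ - W.a₂ - x₁ - x₂ - c) =
      4 * ((ℓ + W.a₁ / 2) ^ 2 + E - (x₂ - c) - (x₁ - c)) := by
    have e : 4 * (ℓ + W.a₁ / 2) ^ 2 = 4 * ℓ ^ 2 + 4 * W.a₁ * ℓ + W.a₁ ^ 2 := by
      field_simp; ring
    linear_combination (-1 : K) * e - e2
  exact mul_left_cancel₀ h4 h4'

end

end Fermat.Agent.M59
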