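import Mathlib
import Fermat.Agent.S58.Mult.Inertia
import Fermat.Agent.S58.Red.E1
import Fermat.Agent.M59.G5.Ord.Chord
import Fermat.Agent.M59.G5.Ord.Coords

/-!
M59 / block [G5], cell (G5-ord) (helper29), prefix `m59go_`.  (ORD-geo), THE GENERIC POINT:
`A` a valuation ring of `K`, a Weierstrass model with multiplicative reduction in the normal form of
`NormalForm.lean`, `σ` in the inertia group of `A`.  If `z = (x, y) ∉ E0` and `σ x ≠ x` then
`σ z - z ∈ E0` (`m59go_chord_mem_E0`).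
-/

set_option autoImplicit false

namespace Fermat.Agent.M59

open WeierstrassCurve WeierstrassCurve.Affine WeierstrassCurve.Affine.Point IsLocalRing
  Fermat.Agent.S05 Fermat.Agent.S58

section generic

variable {F : Type*} [Field F] [DecidableEq F] {A : ValuationSubring F}
  [DecidableEq (ResidueField A)] {W : Affine F} {Wk : Affine (ResidueField A)}

/-- an integral point one of whose partial derivatives is a unit has nonsingular reduction. -/
theorem m59go_mem_E0_of_val (hM : s58r_Model A W Wk) {x y : F} (h : W.Nonsingular x y)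
    (hx : x ∈ A)
    (hv : A.valuation (W.a₁ * y - (3 * x ^ 2 + 2 * W.a₂ * x + W.a₄)) = 1 ∨
      A.valuation (2 * y + W.a₁ * x + W.a₃) = 1) :
    Point.some x y h ∈ s58r_E0 hM := by
  obtain ⟨WA, rfl, rfl⟩ := id hM
  have hy : y ∈ A := s58r_y_mem A WA hx h.1
  have he := s58r_equation_residue A WA (a := ⟨x, hx⟩) (b := ⟨y, hy⟩) h.1
  have hn : (WA.map (residue A)).toAffine.Nonsingular (residue A ⟨x, hx⟩)
      (residue A ⟨y, hy⟩) := by
    rw [nonsingular_iff]
    refine ⟨he, ?_⟩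
    simp only [map_a₁, map_a₂, map_a₃, map_a₄]
    rcases hv with hv | hv
    · left
      intro heq
      have h0 : residue A (WA.a₁ * ⟨y, hy⟩ -
          (3 * (⟨x, hx⟩ : A) ^ 2 + 2 * WA.a₂ * ⟨x, hx⟩ + WA.a₄)) = 0 := by
        simp only [map_sub, map_add, map_mul, map_pow, map_ofNat]
        rw [heq]; ring
      rw [residue_eq_zero_iff, A.valuation_lt_one_iff] at h0
      have hcoe : ((WA.a₁ * ⟨y, hy⟩ -
          (3 * (⟨x, hx⟩ : A) ^ 2 + 2 * WA.a₂ * ⟨x, hx⟩ + WA.a₄) : A) : F) =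
          (WA.map A.subtype).toAffine.a₁ * y -
            (3 * x ^ 2 + 2 * (WA.map A.subtype).toAffine.a₂ * x +
              (WA.map A.subtype).toAffine.a₄) := by
        simp only [map_a₁, map_a₂, map_a₄]
        push_cast
        rfl
      rw [hcoe, hv] at h0
      exact lt_irrefl _ h0
    · right
      intro heq
      have h0 : residue A (2 * (⟨y, hy⟩ : A) + WA.a₁ * ⟨x, hx⟩ + WA.a₃) = 0 := by
        simp only [map_add, map_mul, map_ofNat]
        linear_combination heq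
      rw [residue_eq_zero_iff, A.valuation_lt_one_iff] at h0
      have hcoe : ((2 * (⟨y, hy⟩ : A) + WA.a₁ * ⟨x, hx⟩ + WA.a₃ : A) : F) =
          2 * y + (WA.map A.subtype).toAffine.a₁ * x + (WA.map A.subtype).toAffine.a₃ := by
        simp only [map_a₁, map_a₃]
        push_cast
        rfl
      rw [hcoe, hv] at h0
      exact lt_irrefl _ h0
  exact ⟨_, s58r_RedTo.aff ⟨x, hx⟩ ⟨y, hy⟩ h hn⟩

omit [DecidableEq F] [DecidableEq (ResidueField A)] in
/-- integrality of the coefficients and of the partial derivatives at an integral point. -/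
theorem m59go_coeff_le (hM : s58r_Model A W Wk) :
    A.valuation W.a₁ ≤ 1 ∧ A.valuation W.a₂ ≤ 1 ∧ A.valuation W.a₃ ≤ 1 ∧
      A.valuation W.a₄ ≤ 1 ∧ A.valuation W.a₆ ≤ 1 := by
  obtain ⟨WA, rfl, rfl⟩ := id hM
  obtain ⟨h1, h2, h3, h4, h6⟩ := s58r_coeff_mem A WA
  exact ⟨s58r_le_one_of_mem A h1, s58r_le_one_of_mem A h2, s58r_le_one_of_mem A h3,
    s58r_le_one_of_mem A h4, s58r_le_one_of_mem A h6⟩

/-- a point outside `E0` is integral and both partial derivatives are non-units. -/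
theorem m59go_not_mem_E0 (hM : s58r_Model A W Wk) {x y : F} (h : W.Nonsingular x y)
    (hz : Point.some x y h ∉ s58r_E0 hM) :
    x ∈ A ∧ y ∈ A ∧ A.valuation (W.a₁ * y - (3 * x ^ 2 + 2 * W.a₂ * x + W.a₄)) < 1 ∧
      A.valuation (2 * y + W.a₁ * x + W.a₃) < 1 := by
  have hx : x ∈ A := by
    by_contra hx
    exact hz ⟨0, s58r_RedTo.inf h hx⟩
  have hy : y ∈ A := by
    obtain ⟨WA, rfl, rfl⟩ := id hM
    exact s58r_y_mem A WA hx h.1
  obtain ⟨h1, h2, h3, h4, -⟩ := m59go_coeff_le hM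
  have hvx := s58r_le_one_of_mem A hx
  have hvy := s58r_le_one_of_mem A hy
  have hv2 : A.valuation (2 : F) ≤ 1 := s58r_le_one_of_mem A (by exact_mod_cast natCast_mem A 2)
  have hv3 : A.valuation (3 : F) ≤ 1 := s58r_le_one_of_mem A (by exact_mod_cast natCast_mem A 3)
  have hPX : A.valuation (W.a₁ * y - (3 * x ^ 2 + 2 * W.a₂ * x + W.a₄)) ≤ 1 := by
    refine (Valuation.map_sub _ _ _).trans (max_le ?_ ?_)
    · rw [map_mul]; exact mul_le_one' h1 hvy
    · refine (Valuation.map_add _ _ _).trans (max_le ((Valuation.map_add _ _ _).trans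
        (max_le ?_ ?_)) h4)
      · rw [map_mul, map_pow]; exact mul_le_one' hv3 (pow_le_one₀ zero_le hvx)
      · rw [map_mul, map_mul]; exact mul_le_one' (mul_le_one' hv2 h2) hvx
  have hPY : A.valuation (2 * y + W.a₁ * x + W.a₃) ≤ 1 := by
    refine (Valuation.map_add _ _ _).trans (max_le ((Valuation.map_add _ _ _).trans
      (max_le ?_ ?_)) h3)
    · rw [map_mul]; exact mul_le_one' hv2 hvy
    · rw [map_mul]; exact mul_le_one' h1 hvx
  refine ⟨hx, hy, lt_of_le_of_ne hPX fun h' => ?_, lt_of_le_of_ne hPY fun h' => ?_⟩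
  · exact hz (m59go_mem_E0_of_val hM h hx (Or.inl h'))
  · exact hz (m59go_mem_E0_of_val hM h hx (Or.inr h'))

/-- a point whose `ξ = x - c` is not in the maximal ideal has nonsingular reduction. -/
theorem m59go_mem_E0_of_unit (hM : s58r_Model A W Wk) (hv2 : A.valuation (2 : F) = 1)
    {c D E : F} (hc : A.valuation c ≤ 1) (hD : A.valuation D < 1)
    (e2 : W.b₂ = -4 * (3 * c + E)) (e4 : W.b₄ = 2 * (3 * c ^ 2 + 2 * c * E - D))
    (e6 : W.b₆ = 4 * (-c ^ 3 - E * c ^ 2 + D * c + D * E))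
    {x y : F} (h : W.Nonsingular x y) (hξ : 1 ≤ A.valuation (x - c)) :
    Point.some x y h ∈ s58r_E0 hM := by
  by_cases hx : x ∈ A
  · have hy : y ∈ A := by
      obtain ⟨WA, rfl, rfl⟩ := id hM
      exact s58r_y_mem A WA hx h.1
    obtain ⟨h1, -, h3, -, -⟩ := m59go_coeff_le hM
    have hvx := s58r_le_one_of_mem A hx
    have hvy := s58r_le_one_of_mem A hy
    have hξ1 : A.valuation (x - c) = 1 :=
      le_antisymm ((Valuation.map_sub _ _ _).trans (max_le hvx hc)) hξ
    have hPY : A.valuation (2 * y + W.a₁ * x + W.a₃) ≤ 1 := by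
      refine (Valuation.map_add _ _ _).trans (max_le ((Valuation.map_add _ _ _).trans
        (max_le ?_ ?_)) h3)
      · rw [map_mul, hv2, one_mul]; exact hvy
      · rw [map_mul]; exact mul_le_one' h1 hvx
    exact m59go_mem_E0_of_val hM h hx
      (m59go_nonsing_val A.valuation W hv2 h1 hD e2 e4 e6 h.1 hPY hξ1)
  · exact ⟨0, s58r_RedTo.inf h hx⟩

end generic

section galois

variable {R₀ S K : Type*} [CommRing R₀] [Field S] [Field K] [DecidableEq K] [Algebra R₀ S]
  [Algebra R₀ K] [Algebra S K] [IsScalarTower R₀ S K] [Algebra.IsAlgebraic S K]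
  {W' : Affine R₀} {A : ValuationSubring K}
  [DecidableEq (ResidueField A)] {Wk : Affine (ResidueField A)}

omit [DecidableEq K] [Algebra.IsAlgebraic S K] in
theorem m59go_sigma_coeff (σ : K ≃ₐ[S] K) (r : R₀) :
    σ (algebraMap R₀ K r) = algebraMap R₀ K r := by
  rw [IsScalarTower.algebraMap_apply R₀ S K, σ.commutes]

/-- **(ORD-geo), the generic point**: `z = (x, y) ∉ E0`, `σ` in the inertia group with
`σ x ≠ x`; then `σ z - z ∈ E0`. -/
theorem m59go_chord_mem_E0 (hM : s58r_Model A (W'⁄K) Wk) {σ : K ≃ₐ[S] K}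
    (hσ : σ ∈ A.inertiaSubgroupIn S) (hv2 : A.valuation (2 : K) = 1)
    {c D E t : K} (hc : A.valuation c ≤ 1) (hD : A.valuation D < 1) (hE : A.valuation E = 1)
    (ht : t ^ 2 = -E) (hvt : A.valuation t = 1)
    (e2 : (W'⁄K).b₂ = -4 * (3 * c + E)) (e4 : (W'⁄K).b₄ = 2 * (3 * c ^ 2 + 2 * c * E - D))
    (e6 : (W'⁄K).b₆ = 4 * (-c ^ 3 - E * c ^ 2 + D * c + D * E))
    (hσc : σ c = c) (hσD : σ D = D) (hσt : σ t = t)
    {x y : K} (h : (W'⁄K).Nonsingular x y) (hz : Point.some x y h ∉ s58r_E0 hM)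
    (hx : σ x ≠ x) :
    σ • (Point.some x y h : (W'⁄K).Point) - Point.some x y h ∈ s58r_E0 hM := by
  obtain ⟨hxA, hyA, hPX, hPY⟩ := m59go_not_mem_E0 hM h hz
  obtain ⟨h1, -, h3, -, -⟩ := m59go_coeff_le hM
  have hvx := s58r_le_one_of_mem A hxA
  have hξ : A.valuation (x - c) < 1 :=
    m59go_node_val A.valuation _ hv2 h1 hD e2 e4 e6 h.1
      ((Valuation.map_sub _ _ _).trans (max_le hvx hc)) hPX hPY
  have h2 : (2 : K) ≠ 0 := fun h' => by
    rw [h', _root_.map_zero] at hv2; exact zero_ne_one hv2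
  have hvη : A.valuation ((2 * y + (W'⁄K).a₁ * x + (W'⁄K).a₃) / 2) < 1 := by
    rw [map_div₀, hv2, div_one]; exact hPY
  have hcurve : ((2 * y + (W'⁄K).a₁ * x + (W'⁄K).a₃) / 2) ^ 2 =
      (x - c) ^ 3 - E * (x - c) ^ 2 - D * (x - c) + D * E := by
    have hsq := m59go_PY_sq' _ e2 e4 e6 h.1
    rw [div_pow, hsq]; field_simp; ring
  have hσa₁ : σ (W'⁄K).a₁ = (W'⁄K).a₁ := by
    rw [show (W'⁄K).a₁ = algebraMap R₀ K W'.a₁ from rfl]; exact m59go_sigma_coeff σ _
  have hσa₃ : σ (W'⁄K).a₃ = (W'⁄K).a₃ := by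
    rw [show (W'⁄K).a₃ = algebraMap R₀ K W'.a₃ from rfl]; exact m59go_sigma_coeff σ _
  have hση : σ ((2 * y + (W'⁄K).a₁ * x + (W'⁄K).a₃) / 2) =
      (2 * σ y + (W'⁄K).a₁ * σ x + (W'⁄K).a₃) / 2 := by
    simp only [map_div₀, map_add, map_mul, map_ofNat, hσa₁, hσa₃]
  have hσξ : σ (x - c) = σ x - c := by rw [map_sub, hσc]
  have hX : σ (x - c) ≠ x - c := by
    rw [hσξ]; intro h'; exact hx (sub_left_injective h')
  have hthird := m59go_chord_third A.valuation (σ : K ≃+* K)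
    (fun z => inertia_valuation_apply A hσ z) hD hE ht hvt hv2 hσD hσt hcurve hξ hvη hX
  have hsum : σ • (Point.some x y h : (W'⁄K).Point) - Point.some x y h =
      Point.some _ _ (nonsingular_add
        ((W'.baseChange_nonsingular (f := σ.toAlgHom) σ.injective x y).mpr h)
        ((nonsingular_neg ..).mpr h) fun hxy => hx hxy.left) := by
    rw [S05.smul_some σ h, sub_eq_add_neg, Point.neg_some]
    exact Point.add_of_X_ne hx
  rw [hsum]
  refine m59go_mem_E0_of_unit hM hv2 hc hD e2 e4 e6 _ ?_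
  change 1 ≤ A.valuation ((W'⁄K).addX (σ x) x
    ((W'⁄K).slope (σ x) x (σ y) ((W'⁄K).negY x y)) - c)
  rw [slope_of_X_ne hx, m59go_addX_sub _ h2 e2 hx]
  have e1 : (σ : K ≃+* K) ((2 * y + (W'⁄K).a₁ * x + (W'⁄K).a₃) / 2) =
      (2 * σ y + (W'⁄K).a₁ * σ x + (W'⁄K).a₃) / 2 := hση
  have e3 : (σ : K ≃+* K) (x - c) = σ x - c := hσξ
  rw [e1, e3] at hthird
  exact hthird

end galois

end Fermat.Agent.M59
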