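import Mathlib

/-!
M59 / block [G5], cell (G5-ord) (helper29), prefix `m59go_`.  THE NORMAL FORM OF A WEIERSTRASS
EQUATION WITH MULTIPLICATIVE REDUCTION (pure valuation algebra, Mathlib only).

`K` an algebraically closed field with a valuation `v`, `v 2 = 1`, `W` a Weierstrass equation over
`K` with `v aᵢ ≤ 1`, `v Δ < 1`, `v c₄ = 1`.  Then there are `c D E t` with
`v c ≤ 1`, `v D < 1`, `v E = 1`, `t² = -E`, `v t = 1` and
`x³ + (b₂/4) x² + (b₄/2) x + b₆/4 = ξ³ - E ξ² - D ξ + D E`, `ξ = x - c`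
(coefficientwise: `m59go_nf_exists`), and every ring automorphism fixing `b₂, b₄, b₆` and acting
trivially on residues (an element of the inertia group) fixes `c, D, t`.
-/

set_option autoImplicit false

namespace Fermat.Agent.M59

section

variable {K : Type*} [Field K] {Γ₀ : Type*} [LinearOrderedCommGroupWithZero Γ₀]
  (v : Valuation K Γ₀)

/-- a root of a monic cubic with integral coefficients is integral -/
theorem m59go_root_le_one {a b c x : K} (ha : v a ≤ 1) (hb : v b ≤ 1) (hc : v c ≤ 1)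
    (h : x ^ 3 + a * x ^ 2 + b * x + c = 0) : v x ≤ 1 := by
  by_contra hcon
  rw [not_le] at hcon
  have hpos : (0 : Γ₀) < v x := zero_lt_one.trans hcon
  have h1 : (1 : Γ₀) < v x ^ 3 := one_lt_pow₀ hcon (by norm_num)
  have hx1 : v x < v x ^ 3 := by
    calc v x = v x * 1 := (mul_one _).symm
      _ < v x * v x ^ 2 := mul_lt_mul_of_pos_left (one_lt_pow₀ hcon (by norm_num)) hpos
      _ = v x ^ 3 := by rw [← pow_succ']
  have hx2 : v x ^ 2 < v x ^ 3 := by
    calc v x ^ 2 = v x ^ 2 * 1 := (mul_one _).symm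
      _ < v x ^ 2 * v x := mul_lt_mul_of_pos_left hcon (pow_pos hpos 2)
      _ = v x ^ 3 := by rw [← pow_succ]
  have h2 : v (a * x ^ 2 + b * x + c) < v (x ^ 3) := by
    rw [map_pow]
    refine lt_of_le_of_lt (v.map_add _ _) (max_lt (lt_of_le_of_lt (v.map_add _ _)
      (max_lt ?_ ?_)) (lt_of_le_of_lt hc h1))
    · rw [map_mul, map_pow]
      calc v a * v x ^ 2 ≤ 1 * v x ^ 2 := mul_le_mul' ha le_rfl
        _ = v x ^ 2 := one_mul _
        _ < v x ^ 3 := hx2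
    · rw [map_mul]
      calc v b * v x ≤ 1 * v x := mul_le_mul' hb le_rfl
        _ = v x := one_mul _
        _ < v x ^ 3 := hx1
  have h3 : x ^ 3 = -(a * x ^ 2 + b * x + c) := by linear_combination h
  have h4 : v (x ^ 3) = v (a * x ^ 2 + b * x + c) := by rw [h3, Valuation.map_neg]
  exact absurd h4 (ne_of_gt h2)

theorem m59go_v4 (hv2 : v (2 : K) = 1) : v (4 : K) = 1 := by
  have : (4 : K) = 2 * 2 := by norm_num
  rw [this, map_mul, hv2, one_mul]

theorem m59go_v8 (hv2 : v (2 : K) = 1) : v (8 : K) = 1 := by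
  have : (8 : K) = 2 * 2 * 2 := by norm_num
  rw [this, map_mul, map_mul, hv2, one_mul, one_mul]

theorem m59go_two_ne (hv2 : v (2 : K) = 1) : (2 : K) ≠ 0 := fun h => by
  rw [h, map_zero] at hv2; exact zero_ne_one hv2

/-- the `b`-invariants are integral -/
theorem m59go_b_le_one (W : WeierstrassCurve K) (hv2 : v (2 : K) = 1)
    (h1 : v W.a₁ ≤ 1) (h2 : v W.a₂ ≤ 1) (h3 : v W.a₃ ≤ 1) (h4 : v W.a₄ ≤ 1) (h6 : v W.a₆ ≤ 1) :
    v W.b₂ ≤ 1 ∧ v W.b₄ ≤ 1 ∧ v W.b₆ ≤ 1 := by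
  have hv4 := m59go_v4 v hv2
  refine ⟨?_, ?_, ?_⟩
  · rw [WeierstrassCurve.b₂]
    refine (v.map_add _ _).trans (max_le ?_ ?_)
    · rw [map_pow]; exact pow_le_one₀ zero_le h1
    · rw [map_mul, hv4, one_mul]; exact h2
  · rw [WeierstrassCurve.b₄]
    refine (v.map_add _ _).trans (max_le ?_ ?_)
    · rw [map_mul, hv2, one_mul]; exact h4
    · rw [map_mul]; exact mul_le_one' h1 h3
  · rw [WeierstrassCurve.b₆]
    refine (v.map_add _ _).trans (max_le ?_ ?_)
    · rw [map_pow]; exact pow_le_one₀ zero_le h3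
    · rw [map_mul, hv4, one_mul]; exact h6

/-- **the data attached to a root** `e` of `4x³ + b₂x² + 2b₄x + b₆` (pure algebra). -/
theorem m59go_nf_data (W : WeierstrassCurve K) (h2 : (2 : K) ≠ 0) {e : K}
    (he : 4 * e ^ 3 + W.b₂ * e ^ 2 + 2 * W.b₄ * e + W.b₆ = 0) :
    ∃ c D E : K, c = -(W.b₂ + 4 * e) / 8 ∧ D = c ^ 2 - (W.b₄ / 2 + e * (W.b₂ / 4 + e)) ∧
      E = e - c ∧
      W.b₂ = -4 * (3 * c + E) ∧ W.b₄ = 2 * (3 * c ^ 2 + 2 * c * E - D) ∧
      W.b₆ = 4 * (-c ^ 3 - E * c ^ 2 + D * c + D * E) ∧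
      W.Δ = 64 * D * (E ^ 2 - D) ^ 2 ∧ W.c₄ = 16 * (E ^ 2 + 3 * D) ∧
      12 * e ^ 2 + 2 * W.b₂ * e + 2 * W.b₄ = 4 * (E ^ 2 - D) := by
  have h4 : (4 : K) ≠ 0 := by
    have : (4 : K) = 2 * 2 := by norm_num
    rw [this]; exact mul_ne_zero h2 h2
  have h8 : (8 : K) ≠ 0 := by
    have : (8 : K) = 2 * 4 := by norm_num
    rw [this]; exact mul_ne_zero h2 h4
  obtain ⟨c, hc⟩ : ∃ c : K, c = -(W.b₂ + 4 * e) / 8 := ⟨_, rfl⟩
  obtain ⟨D, hD⟩ : ∃ D : K, D = c ^ 2 - (W.b₄ / 2 + e * (W.b₂ / 4 + e)) := ⟨_, rfl⟩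
  obtain ⟨E, hE⟩ : ∃ E : K, E = e - c := ⟨_, rfl⟩
  have hc' : 8 * c = -(W.b₂ + 4 * e) := by rw [hc]; field_simp
  have hD' : 4 * D = 4 * c ^ 2 - (2 * W.b₄ + e * (W.b₂ + 4 * e)) := by
    rw [hD]; field_simp; ring
  have e2 : W.b₂ = -4 * (3 * c + E) := by rw [hE]; linear_combination hc'
  have e4 : W.b₄ = 2 * (3 * c ^ 2 + 2 * c * E - D) := by
    have : 2 * W.b₄ = 2 * (2 * (3 * c ^ 2 + 2 * c * E - D)) := by
      rw [hE]; linear_combination hD' - e * hc'
    exact mul_left_cancel₀ h2 this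
  have e6 : W.b₆ = 4 * (-c ^ 3 - E * c ^ 2 + D * c + D * E) := by
    rw [hE]; linear_combination he + (-e) * hD'
  have hb8 : W.b₈ = (W.b₂ * W.b₆ - W.b₄ ^ 2) / 4 := by
    rw [eq_div_iff h4]; linear_combination W.b_relation
  refine ⟨c, D, E, hc, hD, hE, e2, e4, e6, ?_, ?_, ?_⟩
  · rw [WeierstrassCurve.Δ, hb8, e2, e4, e6]; field_simp; ring
  · rw [WeierstrassCurve.c₄, e2, e4]; ring
  · have hee : e = c + E := by rw [hE]; ring
    rw [e2, e4, hee]; ring


theorem m59go_sq_eq_one {a : Γ₀} (h : a ^ 2 = 1) : a = 1 := by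
  rcases lt_trichotomy a 1 with h1 | h1 | h1
  · exact absurd h (ne_of_lt (pow_lt_one₀ zero_le h1 (by norm_num)))
  · exact h1
  · exact absurd h (ne_of_gt (one_lt_pow₀ h1 (by norm_num)))

theorem m59go_mul_lt_one {a b : Γ₀} (ha : a < 1) (hb : b ≤ 1) : a * b < 1 := by
  rcases eq_or_ne b 0 with rfl | hb0
  · rw [mul_zero]; exact zero_lt_one
  · calc a * b < 1 * b := mul_lt_mul_of_pos_right ha (zero_lt_iff.mpr hb0)
      _ = b := one_mul _
      _ ≤ 1 := hb

/-- every root of `4x³ + b₂x² + 2b₄x + b₆` is integral -/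
theorem m59go_root_int (W : WeierstrassCurve K) (hv2 : v (2 : K) = 1)
    (hb2 : v W.b₂ ≤ 1) (hb4 : v W.b₄ ≤ 1) (hb6 : v W.b₆ ≤ 1) {e : K}
    (he : 4 * e ^ 3 + W.b₂ * e ^ 2 + 2 * W.b₄ * e + W.b₆ = 0) : v e ≤ 1 := by
  have h2 := m59go_two_ne v hv2
  have hv4 := m59go_v4 v hv2
  have h4 : (4 : K) ≠ 0 := fun h => by rw [h, map_zero] at hv4; exact zero_ne_one hv4
  refine m59go_root_le_one v (a := W.b₂ / 4) (b := W.b₄ / 2) (c := W.b₆ / 4) ?_ ?_ ?_ ?_
  · rw [map_div₀, hv4, div_one]; exact hb2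
  · rw [map_div₀, hv2, div_one]; exact hb4
  · rw [map_div₀, hv4, div_one]; exact hb6
  · have : 4 * (e ^ 3 + W.b₂ / 4 * e ^ 2 + W.b₄ / 2 * e + W.b₆ / 4) = 0 := by
      rw [← he]; field_simp; ring
    exact (mul_eq_zero.mp this).resolve_left h4

section closed

variable [IsAlgClosed K]

theorem m59go_exists_root (W : WeierstrassCurve K) (h2 : (2 : K) ≠ 0) :
    ∃ e : K, 4 * e ^ 3 + W.b₂ * e ^ 2 + 2 * W.b₄ * e + W.b₆ = 0 := by
  have h4 : (4 : K) ≠ 0 := by
    have : (4 : K) = 2 * 2 := by norm_num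
    rw [this]; exact mul_ne_zero h2 h2
  have hdeg : (Polynomial.C (4 : K) * Polynomial.X ^ 3 + Polynomial.C W.b₂ * Polynomial.X ^ 2 +
      Polynomial.C (2 * W.b₄) * Polynomial.X + Polynomial.C W.b₆).degree = 3 :=
    Polynomial.degree_cubic h4
  obtain ⟨e, he⟩ := IsAlgClosed.exists_root _ (by rw [hdeg]; norm_num)
  refine ⟨e, ?_⟩
  simpa [Polynomial.IsRoot] using he

/-- **a root which is simple modulo the maximal ideal.** -/
theorem m59go_simple_root (W : WeierstrassCurve K) (hv2 : v (2 : K) = 1)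
    (hb2 : v W.b₂ ≤ 1) (hb4 : v W.b₄ ≤ 1) (hb6 : v W.b₆ ≤ 1) (hc4 : v W.c₄ = 1) :
    ∃ e : K, 4 * e ^ 3 + W.b₂ * e ^ 2 + 2 * W.b₄ * e + W.b₆ = 0 ∧ v e ≤ 1 ∧
      v (12 * e ^ 2 + 2 * W.b₂ * e + 2 * W.b₄) = 1 := by
  have h2 := m59go_two_ne v hv2
  have hv4 := m59go_v4 v hv2
  have hv8 := m59go_v8 v hv2
  have hv16 : v (16 : K) = 1 := by
    have : (16 : K) = 4 * 4 := by norm_num
    rw [this, map_mul, hv4, one_mul]
  obtain ⟨e₀, he₀⟩ := m59go_exists_root W h2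
  obtain ⟨c, D, E, hc, hD, hE, e2, e4, e6, -, hc4', hder⟩ := m59go_nf_data W h2 he₀
  have hve₀ := m59go_root_int v W hv2 hb2 hb4 hb6 he₀
  have hvc : v c ≤ 1 := by
    rw [hc, map_div₀, hv8, div_one, Valuation.map_neg]
    refine (v.map_add _ _).trans (max_le hb2 ?_)
    rw [map_mul, hv4, one_mul]; exact hve₀
  have hvE : v E ≤ 1 := by rw [hE]; exact (v.map_sub _ _).trans (max_le hve₀ hvc)
  have hvD : v D ≤ 1 := by
    rw [hD]
    refine (v.map_sub _ _).trans (max_le ?_ ?_)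
    · rw [map_pow]; exact pow_le_one₀ zero_le hvc
    · refine (v.map_add _ _).trans (max_le ?_ ?_)
      · rw [map_div₀, hv2, div_one]; exact hb4
      · rw [map_mul]
        refine mul_le_one' hve₀ ((v.map_add _ _).trans (max_le ?_ hve₀))
        rw [map_div₀, hv4, div_one]; exact hb2
  by_cases hs : v (E ^ 2 - D) = 1
  · exact ⟨e₀, he₀, hve₀, by rw [hder, map_mul, hv4, one_mul, hs]⟩
  · have hle : v (E ^ 2 - D) ≤ 1 := by
      refine (v.map_sub _ _).trans (max_le ?_ hvD)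
      rw [map_pow]; exact pow_le_one₀ zero_le hvE
    have hlt : v (E ^ 2 - D) < 1 := lt_of_le_of_ne hle hs
    obtain ⟨d, hd⟩ := IsAlgClosed.exists_pow_nat_eq D (n := 2) (by norm_num)
    have h4D : v (4 * D) = 1 := by
      have e1 : W.c₄ = 16 * (4 * D + (E ^ 2 - D)) := by rw [hc4']; ring
      have h1 : v (4 * D + (E ^ 2 - D)) = 1 := by
        have := hc4
        rw [e1, map_mul, hv16, one_mul] at this
        exact this
      have h4Dle : v (4 * D) ≤ 1 := by rw [map_mul, hv4, one_mul]; exact hvD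
      by_contra hne
      have h4Dlt : v (4 * D) < 1 := lt_of_le_of_ne h4Dle hne
      have := lt_of_le_of_lt (v.map_add (4 * D) (E ^ 2 - D)) (max_lt h4Dlt hlt)
      rw [h1] at this
      exact lt_irrefl _ this
    have hvD1 : v D = 1 := by rwa [map_mul, hv4, one_mul] at h4D
    have hvd : v d = 1 := by
      apply m59go_sq_eq_one
      rw [← map_pow, hd, hvD1]
    have hv2d : v (2 * d) = 1 := by rw [map_mul, hv2, hvd, one_mul]
    have hprod : v (E - d) * v (E + d) < 1 := by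
      rw [← map_mul]
      have : (E - d) * (E + d) = E ^ 2 - D := by rw [← hd]; ring
      rw [this]; exact hlt
    have hcase : v (E - d) < 1 ∨ v (E + d) < 1 := by
      by_contra hcon
      push Not at hcon
      exact absurd hprod (not_lt.mpr (one_le_mul_of_one_le_of_one_le hcon.1 hcon.2))
    obtain ⟨δ, hδ, hδE, hvδ⟩ : ∃ δ : K, δ ^ 2 = D ∧ v (δ - E) = 1 ∧ v δ = 1 := by
      rcases hcase with h | h
      · refine ⟨-d, by rw [neg_pow_two, hd], ?_, by rw [Valuation.map_neg, hvd]⟩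
        have e1 : -d - E = -(2 * d) + (d - E) := by ring
        have h' : v (d - E) < 1 := by rw [Valuation.map_sub_swap]; exact h
        rw [e1, v.map_add_eq_of_lt_left (by rw [Valuation.map_neg, hv2d]; exact h'),
          Valuation.map_neg, hv2d]
      · refine ⟨d, hd, ?_, hvd⟩
        have e1 : d - E = 2 * d - (E + d) := by ring
        rw [e1, v.map_sub_eq_of_lt_left (by rw [hv2d]; exact h), hv2d]
    refine ⟨c + δ, ?_, (v.map_add _ _).trans (max_le hvc hvδ.le), ?_⟩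
    · rw [e2, e4, e6]; linear_combination (4 * (δ - E)) * hδ
    · have : 12 * (c + δ) ^ 2 + 2 * W.b₂ * (c + δ) + 2 * W.b₄ = 8 * δ * (δ - E) := by
        rw [e2, e4]; linear_combination 4 * hδ
      rw [this, map_mul, map_mul, hv8, hvδ, hδE, one_mul, one_mul]

/-- **THE NORMAL FORM.** -/
theorem m59go_nf_exists (W : WeierstrassCurve K) (hv2 : v (2 : K) = 1)
    (hb2 : v W.b₂ ≤ 1) (hb4 : v W.b₄ ≤ 1) (hb6 : v W.b₆ ≤ 1) (hΔ : v W.Δ < 1)
    (hc4 : v W.c₄ = 1) :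
    ∃ c D E t : K, v c ≤ 1 ∧ v D < 1 ∧ v E = 1 ∧ t ^ 2 = -E ∧ v t = 1 ∧
      W.b₂ = -4 * (3 * c + E) ∧ W.b₄ = 2 * (3 * c ^ 2 + 2 * c * E - D) ∧
      W.b₆ = 4 * (-c ^ 3 - E * c ^ 2 + D * c + D * E) ∧
      ∀ σ : K ≃+* K, σ W.b₂ = W.b₂ → σ W.b₄ = W.b₄ → σ W.b₆ = W.b₆ →
        (∀ x, v x ≤ 1 → v (σ x - x) < 1) → σ c = c ∧ σ D = D ∧ σ E = E ∧ σ t = t := by
  have h2 := m59go_two_ne v hv2
  have hv4 := m59go_v4 v hv2
  have hv8 := m59go_v8 v hv2
  have hv16 : v (16 : K) = 1 := by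
    have : (16 : K) = 4 * 4 := by norm_num
    rw [this, map_mul, hv4, one_mul]
  have hv64 : v (64 : K) = 1 := by
    have : (64 : K) = 8 * 8 := by norm_num
    rw [this, map_mul, hv8, one_mul]
  have hv3 : v (3 : K) ≤ 1 := by
    have : (3 : K) = 2 + 1 := by norm_num
    rw [this]
    exact (v.map_add _ _).trans (max_le hv2.le (by rw [map_one]))
  obtain ⟨e, he, hve, hsimple⟩ := m59go_simple_root v W hv2 hb2 hb4 hb6 hc4
  obtain ⟨c, D, E, hc, hD, hE, e2, e4, e6, hΔ', hc4', hder⟩ := m59go_nf_data W h2 he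
  have hvc : v c ≤ 1 := by
    rw [hc, map_div₀, hv8, div_one, Valuation.map_neg]
    refine (v.map_add _ _).trans (max_le hb2 ?_)
    rw [map_mul, hv4, one_mul]; exact hve
  have hs : v (E ^ 2 - D) = 1 := by
    rw [hder, map_mul, hv4, one_mul] at hsimple; exact hsimple
  have hvD : v D < 1 := by
    rw [hΔ', map_mul, map_mul, hv64, one_mul, map_pow, hs, one_pow, mul_one] at hΔ
    exact hΔ
  have hvE : v E = 1 := by
    apply m59go_sq_eq_one
    rw [← map_pow]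
    have h1 : v (E ^ 2 + 3 * D) = 1 := by
      rw [hc4', map_mul, hv16, one_mul] at hc4; exact hc4
    have h3D : v (3 * D) < 1 := by
      rw [map_mul, mul_comm]; exact m59go_mul_lt_one hvD hv3
    have e1 : E ^ 2 = (E ^ 2 + 3 * D) - 3 * D := by ring
    rw [e1, v.map_sub_eq_of_lt_left (by rw [h1]; exact h3D), h1]
  obtain ⟨t, ht⟩ := IsAlgClosed.exists_pow_nat_eq (-E) (n := 2) (by norm_num)
  have hvt : v t = 1 := by
    apply m59go_sq_eq_one
    rw [← map_pow, ht, Valuation.map_neg, hvE]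
  refine ⟨c, D, E, t, hvc, hvD, hvE, ht, hvt, e2, e4, e6, ?_⟩
  intro σ s2 s4 s6 hI
  have hσe : σ e = e := by
    have hroot : 4 * (σ e) ^ 3 + W.b₂ * (σ e) ^ 2 + 2 * W.b₄ * (σ e) + W.b₆ = 0 := by
      have := congrArg σ he
      simpa only [map_add, map_mul, map_pow, s2, s4, s6, map_ofNat, map_zero] using this
    by_contra hne
    have hne' : σ e - e ≠ 0 := sub_ne_zero.mpr hne
    have hQ : (σ e - e) * (4 * ((σ e) ^ 2 + σ e * e + e ^ 2) + W.b₂ * (σ e + e) + 2 * W.b₄)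
        = 0 := by linear_combination hroot - he
    have hQ0 := (mul_eq_zero.mp hQ).resolve_left hne'
    have hQd : 4 * ((σ e) ^ 2 + σ e * e + e ^ 2) + W.b₂ * (σ e + e) + 2 * W.b₄ =
        (12 * e ^ 2 + 2 * W.b₂ * e + 2 * W.b₄) + (σ e - e) * (4 * (σ e + 2 * e) + W.b₂) := by
      ring
    have hvσe : v (σ e) ≤ 1 := m59go_root_int v W hv2 hb2 hb4 hb6 hroot
    have hlt : v ((σ e - e) * (4 * (σ e + 2 * e) + W.b₂)) < 1 := by
      rw [map_mul]
      refine m59go_mul_lt_one (hI e hve) ((v.map_add _ _).trans (max_le ?_ hb2))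
      rw [map_mul, hv4, one_mul]
      refine (v.map_add _ _).trans (max_le hvσe ?_)
      rw [map_mul, hv2, one_mul]; exact hve
    have h1 : v (4 * ((σ e) ^ 2 + σ e * e + e ^ 2) + W.b₂ * (σ e + e) + 2 * W.b₄) = 1 := by
      rw [hQd, v.map_add_eq_of_lt_left (by rw [hsimple]; exact hlt)]; exact hsimple
    rw [hQ0, map_zero] at h1
    exact zero_ne_one h1
  have hσc : σ c = c := by
    rw [hc]
    simp only [map_div₀, map_neg, map_add, map_mul, map_ofNat, s2, hσe]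
  have hσD : σ D = D := by
    rw [hD]
    simp only [map_div₀, map_sub, map_add, map_mul, map_pow, map_ofNat, s2, s4, hσe, hσc]
  have hσE : σ E = E := by rw [hE, map_sub, hσe, hσc]
  refine ⟨hσc, hσD, hσE, ?_⟩
  have hsq : (σ t - t) * (σ t + t) = 0 := by
    have h1 : (σ t) ^ 2 = -E := by rw [← map_pow, ht, map_neg, hσE]
    linear_combination h1 - ht
  rcases mul_eq_zero.mp hsq with h | h
  · exact sub_eq_zero.mp h
  · exfalso
    have h1 : σ t - t = -(2 * t) := by linear_combination h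
    have h2' := hI t hvt.le
    rw [h1, Valuation.map_neg, map_mul, hv2, hvt, one_mul] at h2'
    exact lt_irrefl _ h2'

end closed

end

end Fermat.Agent.M59
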