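import Mathlib
import Fermat.Agent.S58.Mult.ZeroComp
import Fermat.Agent.M59.G5.Ord.NormalForm
import Fermat.Agent.M59.G5.Ord.GeoPt

/-!
M59 / block [G5], cell (G5-ord) (helper29), prefix `m59go_`.  **(ORD-geo)**: for a semistable
integral model `W`, an odd prime `p` of bad (multiplicative) reduction, a place `A ∣ p` of `ℚ̄`
and `σ` in the inertia group of `A`:

  `σ • z - z` lies in the zero component at `A`, for EVERY `z ∈ W(ℚ̄)`   (`m59go_geo`).

(The component group of the Néron model is a trivial inertia module.)  Proof: chord lemma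
(`Chord.lean`) in the normal form (`NormalForm.lean`) for the generic point (`GeoPt.lean`); the
degenerate case `σ z = -z` is reduced to the generic one by translating `z` by an inertia-fixed
point of odd prime order `ℓ ≠ p` (main's `s58m_fixSeam`).
-/

set_option autoImplicit false

namespace Fermat.Agent.M59

open WeierstrassCurve WeierstrassCurve.Affine WeierstrassCurve.Affine.Point IsLocalRing
  Fermat.Agent.S05 Fermat.Agent.S58

section galois

variable {R₀ S K : Type*} [CommRing R₀] [Field S] [Field K] [DecidableEq K] [Algebra R₀ S]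
  [Algebra R₀ K] [Algebra S K] [IsScalarTower R₀ S K] {W' : Affine R₀}

/-- a point whose `x`-coordinate is fixed by `σ` is sent to itself or to its opposite. -/
theorem m59go_smul_eq_or (σ : K ≃ₐ[S] K) {x y : K} (h : (W'⁄K).Nonsingular x y)
    (hx : σ x = x) :
    σ • (Point.some x y h : (W'⁄K).Point) = Point.some x y h ∨
      σ • (Point.some x y h : (W'⁄K).Point) = -Point.some x y h := by
  have h' : (W'⁄K).Nonsingular (σ x) (σ y) :=
    (W'.baseChange_nonsingular (f := σ.toAlgHom) σ.injective x y).mpr h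
  rw [S05.smul_some σ h, Point.neg_some]
  rcases Y_eq_of_X_eq h'.1 h.1 hx with hy | hy
  · exact Or.inl (s58r_some_congr hx hy _ _)
  · exact Or.inr (s58r_some_congr hx hy _ _)

end galois

/-- `2 • T = 0` and `ℓ • T = 0`, `ℓ` odd, force `T = 0`. -/
theorem m59go_odd_two_torsion {G : Type*} [AddCommGroup G] {T : G} {l : ℕ} (hl : Odd l)
    (h2 : 2 • T = 0) (hlT : l • T = 0) : T = 0 := by
  obtain ⟨k, rfl⟩ := hl
  rw [add_nsmul, mul_nsmul, h2, nsmul_zero, zero_add, one_nsmul] at hlT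
  exact hlT

/-- **(ORD-geo).** -/
theorem m59go_geo (W : WeierstrassCurve ℤ) (hss : W.IsSemistableModel) (hΔ : W.Δ ≠ 0) {p : ℕ}
    (hp : p.Prime) (hp2 : p ≠ 2) (hbad : (p : ℤ) ∣ W.Δ) (A : ValuationSubring s58_Qb)
    (hA : A.LiesOverPrime p) {σ : s58_G} (hσ : σ ∈ A.inertiaSubgroupIn ℚ) (z : s58_E W) :
    W.InZeroComponentAt A (σ • z - z) := by
  classical
  have _ : Algebra.IsAlgebraic ℚ s58_Qb := AlgebraicClosure.isAlgebraic ℚ
  rw [s58m_inZeroComponentAt_iff]
  have hM := s58m_model W A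
  -- valuations of integers
  have hv2 : A.valuation (2 : s58_Qb) = 1 := by
    have h := (intVal_eq_one_iff A hA hp (2 : ℤ)).mpr (fun hd => hp2 (by
      have h1 : p ∣ 2 := by exact_mod_cast hd
      exact (Nat.prime_dvd_prime_iff_eq hp Nat.prime_two).mp h1))
    simpa using h
  obtain ⟨h1, h2, h3, h4, h6⟩ := m59go_coeff_le hM
  obtain ⟨hb2, hb4, hb6⟩ := m59go_b_le_one A.valuation ((s58_WQ W)⁄s58_Qb) hv2 h1 h2 h3 h4 h6
  have hΔv : A.valuation ((s58_WQ W)⁄s58_Qb).Δ < 1 := by
    rw [s58m_curve_Δ]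
    exact (intVal_lt_one_iff A hA hp _).mpr hbad
  have hc4v : A.valuation ((s58_WQ W)⁄s58_Qb).c₄ = 1 := by
    have e : ((s58_WQ W)⁄s58_Qb).c₄ = ((W.c₄ : ℤ) : s58_Qb) := by
      show ((W.map (Int.castRingHom ℚ)).map (algebraMap ℚ s58_Qb)).c₄ = _
      rw [WeierstrassCurve.map_c₄, WeierstrassCurve.map_c₄]
      simp
    rw [e]
    exact (intVal_eq_one_iff A hA hp _).mpr (hss p hp hbad)
  obtain ⟨c, D, E, t, hc, hD, hE, ht, hvt, e2, e4, e6, hinv⟩ :=
    m59go_nf_exists A.valuation ((s58_WQ W)⁄s58_Qb) hv2 hb2 hb4 hb6 hΔv hc4v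
  -- inertia fixes the normal form
  have hfix : ∀ τ : s58_G, τ ∈ A.inertiaSubgroupIn ℚ → τ c = c ∧ τ D = D ∧ τ t = t := by
    intro τ hτ
    have hb : ∀ r : ℚ, (τ : s58_Qb ≃+* s58_Qb) (algebraMap ℚ s58_Qb r) = algebraMap ℚ s58_Qb r :=
      fun r => τ.commutes r
    obtain ⟨a, b, -, d⟩ := hinv (τ : s58_Qb ≃+* s58_Qb)
      (by rw [show ((s58_WQ W)⁄s58_Qb).b₂ = algebraMap ℚ s58_Qb (s58_WQ W).b₂ from
        WeierstrassCurve.map_b₂ _ _]; exact hb _)
      (by rw [show ((s58_WQ W)⁄s58_Qb).b₄ = algebraMap ℚ s58_Qb (s58_WQ W).b₄ from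
        WeierstrassCurve.map_b₄ _ _]; exact hb _)
      (by rw [show ((s58_WQ W)⁄s58_Qb).b₆ = algebraMap ℚ s58_Qb (s58_WQ W).b₆ from
        WeierstrassCurve.map_b₆ _ _]; exact hb _)
      (fun x hx => inertia_sub_lt_one A hτ (s58r_mem_of_le_one A hx))
    exact ⟨a, b, d⟩
  -- the generic case
  have hgen : ∀ w : s58_E W, w ∉ s58r_E0 hM → σ • w ≠ w → σ • w ≠ -w →
      σ • w - w ∈ s58r_E0 hM := by
    intro w hw hne hne'
    rcases w with _ | ⟨x, y, h⟩
    · exact absurd (s58r_E0 hM).zero_mem hw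
    · have hx : σ x ≠ x := by
        intro hx
        rcases m59go_smul_eq_or σ h hx with h' | h'
        · exact hne h'
        · exact hne' h'
      obtain ⟨hσc, hσD, hσt⟩ := hfix σ hσ
      exact m59go_chord_mem_E0 hM hσ hv2 hc hD hE ht hvt e2 e4 e6 hσc hσD hσt h hw hx
  by_cases hz : z ∈ s58r_E0 hM
  · exact (s58r_E0 hM).sub_mem (s58m_smul_mem_E0 hM hσ ⟨z, hz⟩) hz
  by_cases hzz : σ • z = z
  · rw [hzz, sub_self]; exact (s58r_E0 hM).zero_mem
  by_cases hzn : σ • z = -z
  · by_cases h2z : 2 • z = 0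
    · have : σ • z - z = 0 := by
        rw [hzn, ← neg_add', ← two_nsmul, h2z, _root_.neg_zero]
      rw [this]; exact (s58r_E0 hM).zero_mem
    · -- translate by an inertia-fixed point of odd prime order `ℓ ≠ p`
      obtain ⟨l, hl, hl2, hpl⟩ : ∃ l : ℕ, l.Prime ∧ l ≠ 2 ∧ p ≠ l := by
        by_cases h3 : p = 3
        · exact ⟨5, by norm_num, by norm_num, by omega⟩
        · exact ⟨3, by norm_num, by norm_num, h3⟩
      obtain ⟨T, hT1, hT0, hTfix⟩ := s58m_fixSeam W hss hΔ l p hl hl2 hp hpl A hA 0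
      rw [zero_add, pow_one] at hT1
      rw [pow_zero, one_nsmul] at hT0
      have hσT : σ • T = T := hTfix σ hσ
      rw [← ga_smul_sub_of_fixed_add σ hσT]
      by_cases hw : z + T ∈ s58r_E0 hM
      · exact (s58r_E0 hM).sub_mem (s58m_smul_mem_E0 hM hσ ⟨_, hw⟩) hw
      · refine hgen (z + T) hw ?_ ?_
        · rw [ga_smul_add, hσT, hzn]
          intro h'
          have h'' : -z = z := add_right_cancel h'
          apply h2z
          rw [two_nsmul]
          nth_rewrite 1 [← h'']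
          exact neg_add_cancel z
        · rw [ga_smul_add, hσT, hzn, neg_add]
          intro h'
          have h'' : T = -T := add_left_cancel h'
          apply hT0
          refine m59go_odd_two_torsion (hl.odd_of_ne_two hl2) ?_ hT1
          rw [two_nsmul]
          nth_rewrite 1 [h'']
          exact neg_add_cancel T
  · exact hgen z hz hzz hzn

end Fermat.Agent.M59
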