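import Mathlib
import Fermat.Agent.M59.G5.Seams2
import Fermat.Agent.S44.ChiRam.Main

/-!
M59 / block [G5], cell (G5-ord), sub-cell **inertia at `p` acts non-trivially on `T_p W`**
(helper23), prefix `m59gol_`.

`m59gol_inertia_act` : if `det (ρ_W ⊗ 𝒪) = ε` then for every place `P ∣ p` (`p` odd) some
`σ ∈ I_P` has `ρ_W σ ≠ 1` (main's `s44c_chiRam`: `σ₀ ζ_p = ζ_p ^ k₀` with `k₀ ≢ 1`; if `ρ_W σ₀ = 1`
then `1 - k₀ ∈ (p) ⊆ 𝔪`, but `1 - k₀` is a unit).  This is clause (4) of `m59gol_ord2_of`.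
-/

set_option autoImplicit false
set_option linter.unusedSectionVars false
set_option linter.style.haveILetI false

open IsLocalRing Fermat.Agent.S58 Fermat.Agent.JT3

namespace Fermat.Agent.M59

theorem m59gol_inertia_act (p : ℕ) [Fact p.Prime] (hp2 : p ≠ 2) (ρW : GaloisRepAdic ℤ_[p])
    (𝒪 : Type) [CommRing 𝒪] [IsLocalRing 𝒪] [IsAdicComplete (maximalIdeal 𝒪) 𝒪]
    (hp : (p : 𝒪) ∈ maximalIdeal 𝒪) (hdet : (m59g_rho p 𝒪 hp ρW).DetIsCyclotomic p)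
    (P : ValuationSubring (AlgebraicClosure ℚ)) (hP : P.LiesOverPrime p) :
    ∃ σ ∈ P.inertiaSubgroupIn ℚ, ρW.ρ σ ≠ 1 := by
  have hpp : p.Prime := Fact.out
  obtain ⟨ζ, hζ⟩ := HasEnoughRootsOfUnity.exists_primitiveRoot (AlgebraicClosure ℚ) p
  obtain ⟨σ₀, hσ₀, k₀, hk, hk1⟩ := Fermat.Agent.S44.s44c_chiRam p hp2 P hP ζ hζ
  refine ⟨σ₀, hσ₀, fun h1 => ?_⟩
  -- the determinant over `𝒪` is `1`
  have hd : LinearMap.det ((m59g_rho p 𝒪 hp ρW).ρ σ₀) = 1 := by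
    letI : Algebra ℤ_[p] 𝒪 := (cya_padicHom p 𝒪 hp).toAlgebra
    have h2 : (m59g_rho p 𝒪 hp ρW).ρ σ₀ = (ρW.ρ σ₀).baseChange 𝒪 := rfl
    rw [h2, h1, Module.End.one_eq_id, LinearMap.baseChange_id]
    exact LinearMap.det_id
  have h3 := hdet.2 1 σ₀ k₀ (fun μ hμ => by
    rw [pow_one] at hμ
    obtain ⟨j, -, rfl⟩ := hζ.eq_pow_of_pow_eq_one hμ
    rw [map_pow, hk, ← pow_mul, ← pow_mul, mul_comm])
  rw [hd, pow_one] at h3
  have h4 : (1 : 𝒪) - (k₀ : 𝒪) ∈ maximalIdeal 𝒪 := by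
    obtain ⟨c, hc⟩ := Ideal.mem_span_singleton.mp h3
    rw [hc]
    exact Ideal.mul_mem_right _ _ hp
  -- `1 - k₀` is prime to `p`
  have hcop : IsCoprime ((1 : ℤ) - k₀) (p : ℤ) := by
    rw [isCoprime_comm, Int.isCoprime_iff_gcd_eq_one, ← Int.natAbs_natCast p]
    refine (Nat.Coprime.gcd_eq_one ?_)
    rw [Int.natAbs_natCast]
    refine (Nat.Prime.coprime_iff_not_dvd hpp).mpr fun hdvd => hk1 ?_
    have h5 : (p : ℤ) ∣ (1 : ℤ) - k₀ := Int.natCast_dvd.mpr hdvd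
    exact (Int.modEq_iff_dvd.mpr h5)
  obtain ⟨a, b, hab⟩ := hcop
  have h6 : (a : 𝒪) * ((1 : 𝒪) - (k₀ : 𝒪)) + (b : 𝒪) * (p : 𝒪) = 1 := by
    have := congrArg (fun n : ℤ => (n : 𝒪)) hab
    push_cast at this
    exact this
  have h7 : (1 : 𝒪) ∈ maximalIdeal 𝒪 := by
    rw [← h6]
    exact Ideal.add_mem _ (Ideal.mul_mem_left _ _ h4) (Ideal.mul_mem_left _ _ hp)
  exact (Ideal.ne_top_iff_one _).mp (maximalIdeal.isMaximal 𝒪).ne_top h7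

end Fermat.Agent.M59
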