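import Mathlib
import Fermat.Agent.M59.G5.Seams2
import Fermat.Agent.S56.PS.BaseChange

/-!
M59 / block [G5], cell (G5-ord), sub-cell (a)+(b) **the ordinary line** (helper23), prefix `m59gol_`.

* `m59gol_line` : in a free module of rank `2` over a PID a saturated submodule `L ≠ ⊥, ⊤` is
  spanned by the first vector of a basis (Smith normal form);
* `m59gol_L hT E0` : for a subgroup `E0 ≤ W(ℚ̄)` the `ℤ_p`-submodule `{v | ∀ n, π n v ∈ E0}` of the
  Tate module; it is saturated (`m59gol_L_sat`), stable under every `σ` stabilising `E0`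
  (`m59gol_L_stable`), contains `(ρ σ - 1) V` if `σ z - z ∈ E0` for every `z` (`m59gol_L_sub`),
  is `≠ ⊤` if some `p`-power torsion point lies outside `E0` (`m59gol_L_ne_top`), and is `≠ ⊥` as soon
  as some `σ` with `σ z - z ∈ E0` for all `z` acts non-trivially (`m59gol_L_ne_bot`);
* `m59gol_ordinary_of` : `ρW.IsOrdinaryAt p` from such an `E0` at every place over `p`;
* `m59gol_ord2_of`     : the same for `m59g_rho p 𝒪 hp ρW` (main's `s56bc_ordinary`).
-/

set_option autoImplicit false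
set_option linter.unusedSectionVars false
set_option linter.style.haveILetI false

open IsLocalRing WeierstrassCurve Fermat.Agent.S58 Fermat.Agent.JT3

namespace Fermat.Agent.M59

noncomputable section

/-! ### The abstract line lemma -/

theorem m59gol_line {R V : Type} [CommRing R] [IsDomain R] [IsPrincipalIdealRing R]
    [AddCommGroup V] [Module R V] (b₀ : Module.Basis (Fin 2) R V) (L : Submodule R V)
    (hsat : ∀ (a : R) (v : V), a ≠ 0 → a • v ∈ L → v ∈ L) (h0 : L ≠ ⊥) (h1 : L ≠ ⊤) :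
    ∃ b : Module.Basis (Fin 2) R V, L = R ∙ b 0 := by
  classical
  obtain ⟨n, snf⟩ := L.smithNormalForm b₀
  have hmem : ∀ i, snf.bM (snf.f i) ∈ L := by
    intro i
    have ha : snf.a i ≠ 0 := by
      intro h
      have h2 := snf.snf i
      rw [h, zero_smul] at h2
      exact snf.bN.ne_zero i (Subtype.ext h2)
    refine hsat (snf.a i) _ ha ?_
    rw [← snf.snf i]
    exact (snf.bN i).2
  have hn0 : n ≠ 0 := by
    rintro rfl
    apply h0
    rw [eq_bot_iff]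
    intro x hx
    have h2 := snf.bN.sum_repr ⟨x, hx⟩
    rw [Finset.univ_eq_empty, Finset.sum_empty] at h2
    rw [Submodule.mem_bot]
    exact (congrArg Subtype.val h2).symm
  have hn2 : n ≤ 2 := by
    have := Fintype.card_le_of_embedding snf.f
    simpa using this
  have hne2 : n ≠ 2 := by
    rintro rfl
    apply h1
    have hsurj : Function.Surjective snf.f :=
      Finite.injective_iff_surjective.mp snf.f.injective
    rw [eq_top_iff, ← snf.bM.span_eq, Submodule.span_le]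
    rintro _ ⟨j, rfl⟩
    obtain ⟨i, rfl⟩ := hsurj j
    exact hmem i
  obtain rfl : n = 1 := by omega
  refine ⟨snf.bM.reindex (Equiv.swap 0 (snf.f 0)), ?_⟩
  have hb0 : (snf.bM.reindex (Equiv.swap 0 (snf.f 0))) 0 = snf.bM (snf.f 0) := by
    rw [Module.Basis.reindex_apply, Equiv.symm_swap, Equiv.swap_apply_left]
  rw [hb0]
  apply le_antisymm
  · intro x hx
    have h2 := snf.bN.sum_repr ⟨x, hx⟩
    rw [Fin.sum_univ_one] at h2
    have h3 : x = (snf.bN.repr ⟨x, hx⟩ 0 * snf.a 0) • snf.bM (snf.f 0) := by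
      rw [mul_smul, ← snf.snf 0]
      exact (congrArg Subtype.val h2).symm
    rw [h3]
    exact Submodule.smul_mem _ _ (Submodule.mem_span_singleton_self _)
  · rw [Submodule.span_singleton_le_iff_mem]
    exact hmem 0

/-- saturation at `p` gives saturation at every non-zero `p`-adic integer -/
theorem m59gol_sat_padic {p : ℕ} [Fact p.Prime] {V : Type} [AddCommGroup V] [Module ℤ_[p] V]
    (L : Submodule ℤ_[p] V) (hsat : ∀ v : V, (p : ℤ_[p]) • v ∈ L → v ∈ L)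
    (a : ℤ_[p]) (v : V) (ha : a ≠ 0) (hav : a • v ∈ L) : v ∈ L := by
  have hpow : ∀ (k : ℕ) (w : V), (p : ℤ_[p]) ^ k • w ∈ L → w ∈ L := by
    intro k
    induction k with
    | zero => intro w hw; simpa using hw
    | succ k ih =>
      intro w hw
      apply ih
      apply hsat
      rwa [smul_smul, ← pow_succ']
  have h1 := PadicInt.unitCoeff_spec ha
  rw [h1, mul_comm, mul_smul] at hav
  have h2 := hpow _ _ hav
  have h3 : v = ((PadicInt.unitCoeff ha)⁻¹ : ℤ_[p]ˣ) • ((PadicInt.unitCoeff ha : ℤ_[p]) • v) := by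
    rw [Units.smul_def, smul_smul, Units.inv_mul, one_smul]
  rw [h3]
  exact Submodule.smul_mem _ _ h2

/-! ### The submodule of the Tate module cut out by a subgroup of `W(ℚ̄)` -/

section Tate

variable {W : WeierstrassCurve ℤ} {p : ℕ} [Fact p.Prime] {ρW : GaloisRepAdic ℤ_[p]}
  {π : ℕ → ρW.V →+ s58_E W}

/-- `{v | ∀ n, π n v ∈ E0}` -/
def m59gol_L (hT : s58top_IsTate W p ρW π) (E0 : AddSubgroup (s58_E W)) :
    Submodule ℤ_[p] ρW.V where
  carrier := {v | ∀ n, π n v ∈ E0}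
  add_mem' := fun {a b} ha hb n => by
    rw [map_add]
    exact E0.add_mem (ha n) (hb n)
  zero_mem' := fun n => by
    rw [map_zero]
    exact E0.zero_mem
  smul_mem' := fun a v hv n => by
    rw [hT.smul]
    exact E0.nsmul_mem (hv n) _

theorem m59gol_mem_L (hT : s58top_IsTate W p ρW π) (E0 : AddSubgroup (s58_E W)) (v : ρW.V) :
    v ∈ m59gol_L hT E0 ↔ ∀ n, π n v ∈ E0 := Iff.rfl

theorem m59gol_L_sat (hT : s58top_IsTate W p ρW π) (E0 : AddSubgroup (s58_E W)) (v : ρW.V)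
    (hv : (p : ℤ_[p]) • v ∈ m59gol_L hT E0) : v ∈ m59gol_L hT E0 := by
  intro n
  have h1 := hv (n + 1)
  rw [s58top_pi_natCast_smul, hT.compat] at h1
  exact h1

theorem m59gol_L_stable (hT : s58top_IsTate W p ρW π) (E0 : AddSubgroup (s58_E W)) (σ : s58_G)
    (hσ : ∀ z ∈ E0, σ • z ∈ E0) (v : ρW.V) (hv : v ∈ m59gol_L hT E0) :
    ρW.ρ σ v ∈ m59gol_L hT E0 := by
  intro n
  rw [hT.gal]
  exact hσ _ (hv n)

theorem m59gol_L_sub (hT : s58top_IsTate W p ρW π) (E0 : AddSubgroup (s58_E W)) (σ : s58_G)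
    (hσ : ∀ z : s58_E W, σ • z - z ∈ E0) (v : ρW.V) :
    ρW.ρ σ v - v ∈ m59gol_L hT E0 := by
  intro n
  rw [map_sub, hT.gal]
  exact hσ _

theorem m59gol_L_ne_top (hT : s58top_IsTate W p ρW π) (E0 : AddSubgroup (s58_E W))
    (hz : ∃ (n : ℕ) (z : s58_E W), p ^ n • z = 0 ∧ z ∉ E0) : m59gol_L hT E0 ≠ ⊤ := by
  obtain ⟨n, z, hz0, hzE⟩ := hz
  obtain ⟨v, hv⟩ := hT.surj n z hz0
  intro h
  have h1 : v ∈ m59gol_L hT E0 := by
    rw [h]
    trivial
  exact hzE (hv ▸ h1 n)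

theorem m59gol_L_ne_bot (hT : s58top_IsTate W p ρW π) (E0 : AddSubgroup (s58_E W))
    (hσ : ∃ σ : s58_G, (∀ z : s58_E W, σ • z - z ∈ E0) ∧ ρW.ρ σ ≠ 1) :
    m59gol_L hT E0 ≠ ⊥ := by
  obtain ⟨σ, hσ1, hσ2⟩ := hσ
  intro h
  apply hσ2
  refine LinearMap.ext fun v => ?_
  have h1 := m59gol_L_sub hT E0 σ hσ1 v
  rw [h, Submodule.mem_bot, sub_eq_zero] at h1
  rw [h1]
  rfl

/-- **the ordinary line of the Tate module** from a subgroup `E0(P) ≤ W(ℚ̄)` at every place `P ∣ p`: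
stable under the decomposition group, containing `σ z - z` for every `σ ∈ I_P` and every point `z`,
missing some `p`-power torsion point, and with some `σ ∈ I_P` acting non-trivially. -/
theorem m59gol_ordinary_of (hT : s58top_IsTate W p ρW π)
    (h : ∀ P : ValuationSubring s58_Qb, P.LiesOverPrime p →
      ∃ E0 : AddSubgroup (s58_E W),
        (∀ σ ∈ P.decompositionSubgroup ℚ, ∀ z ∈ E0, σ • z ∈ E0) ∧
        (∀ σ ∈ P.inertiaSubgroupIn ℚ, ∀ z : s58_E W, σ • z - z ∈ E0) ∧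
        (∃ (n : ℕ) (z : s58_E W), p ^ n • z = 0 ∧ z ∉ E0) ∧
        (∃ σ ∈ P.inertiaSubgroupIn ℚ, ρW.ρ σ ≠ 1)) :
    ρW.IsOrdinaryAt p := by
  intro P hP
  obtain ⟨E0, hD, hI, hz, σ₀, hσ₀, hσ₀1⟩ := h P hP
  have hb := m59gol_line (Module.finBasisOfFinrankEq ℤ_[p] ρW.V ρW.finrank_eq) (m59gol_L hT E0)
    (fun a v ha hav => m59gol_sat_padic _ (m59gol_L_sat hT E0) a v ha hav)
    (m59gol_L_ne_bot hT E0 ⟨σ₀, hI σ₀ hσ₀, hσ₀1⟩) (m59gol_L_ne_top hT E0 hz)
  exact ⟨m59gol_L hT E0, hb, fun σ hσ v hv => m59gol_L_stable hT E0 σ (hD σ hσ) v hv,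
    fun σ hσ v => m59gol_L_sub hT E0 σ (hI σ hσ) v⟩

/-- the same over the coefficient ring `𝒪` (main's `s56bc_ordinary`) -/
theorem m59gol_ord2_of (hT : s58top_IsTate W p ρW π)
    (h : ∀ P : ValuationSubring s58_Qb, P.LiesOverPrime p →
      ∃ E0 : AddSubgroup (s58_E W),
        (∀ σ ∈ P.decompositionSubgroup ℚ, ∀ z ∈ E0, σ • z ∈ E0) ∧
        (∀ σ ∈ P.inertiaSubgroupIn ℚ, ∀ z : s58_E W, σ • z - z ∈ E0) ∧
        (∃ (n : ℕ) (z : s58_E W), p ^ n • z = 0 ∧ z ∉ E0) ∧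
        (∃ σ ∈ P.inertiaSubgroupIn ℚ, ρW.ρ σ ≠ 1))
    (𝒪 : Type) [CommRing 𝒪] [IsLocalRing 𝒪] [IsAdicComplete (maximalIdeal 𝒪) 𝒪]
    (hp : (p : 𝒪) ∈ maximalIdeal 𝒪) : (m59g_rho p 𝒪 hp ρW).IsOrdinaryAt p :=
  Fermat.Agent.S56.s56bc_ordinary _ _ ρW p (m59gol_ordinary_of hT h)

end Tate

end

end Fermat.Agent.M59
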